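import Mathlib
import Fermat.Agent.T1.RedIface75

/-!
# T1A (S19), brick G7-B ADAPT, part (B3)/(B4) (helper39): bijectivity of semilinear tensor maps

`semiTensor_bijective`: if the `σW`-semilinear ring homomorphisms `f : A → A'`, `τ : B → B` have
two-sided inverses `f'`, `τ'` which are semilinear over some `σW'`, then
`semiTensor σW f τ : A ⊗[W] B → A' ⊗[W] B` is bijective, with inverse `semiTensor σW' f' τ'`.
This supplies the hypotheses `hb0`, `hb1` of `PtLine75.mapSemi_mk_ofIdeals` and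
`PtLine75.mapSemi_ptClass0/1` for a Galois automorphism.
-/

set_option autoImplicit false

open TensorProduct

namespace Fermat.Agent.T1.Adapt39

open Fermat.Agent.T1.RedIface75

universe u

variable {W A A' B : Type u} [CommRing W] [CommRing A] [CommRing A'] [CommRing B]
  [Algebra W A] [Algebra W A'] [Algebra W B]

/-- Composition of two semilinear tensor maps, on all elements. -/
theorem semiTensor_semiTensor (σW σW' : W →+* W) (f : A →+* A') (f' : A' →+* A) (τ τ' : B →+* B)
    (hf : ∀ (w : W) (a : A), f (w • a) = σW w • f a)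
    (hτ : ∀ (w : W) (b : B), τ (w • b) = σW w • τ b)
    (hf' : ∀ (w : W) (a : A'), f' (w • a) = σW' w • f' a)
    (hτ' : ∀ (w : W) (b : B), τ' (w • b) = σW' w • τ' b)
    (hff' : ∀ a, f' (f a) = a) (hττ' : ∀ b, τ' (τ b) = b) (x : A ⊗[W] B) :
    semiTensor σW' f' τ' hf' hτ' (semiTensor σW f τ hf hτ x) = x := by
  induction x using TensorProduct.induction_on with
  | zero => simp
  | tmul a b => rw [semiTensor_tmul, semiTensor_tmul, hff', hττ']
  | add x y hx hy => rw [map_add, map_add, hx, hy]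

/-- **Bijectivity of a semilinear tensor map with semilinear inverses.** -/
theorem semiTensor_bijective (σW σW' : W →+* W) (f : A →+* A') (f' : A' →+* A) (τ τ' : B →+* B)
    (hf : ∀ (w : W) (a : A), f (w • a) = σW w • f a)
    (hτ : ∀ (w : W) (b : B), τ (w • b) = σW w • τ b)
    (hf' : ∀ (w : W) (a : A'), f' (w • a) = σW' w • f' a)
    (hτ' : ∀ (w : W) (b : B), τ' (w • b) = σW' w • τ' b)
    (hff' : ∀ a, f' (f a) = a) (hf'f : ∀ a, f (f' a) = a)
    (hττ' : ∀ b, τ' (τ b) = b) (hτ'τ : ∀ b, τ (τ' b) = b) :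
    Function.Bijective (semiTensor σW f τ hf hτ) :=
  Function.bijective_iff_has_inverse.mpr
    ⟨semiTensor σW' f' τ' hf' hτ',
      semiTensor_semiTensor σW σW' f f' τ τ' hf hτ hf' hτ' hff' hττ',
      semiTensor_semiTensor σW' σW f' f τ' τ hf' hτ' hf hτ hf'f hτ'τ⟩

/-- The ring isomorphism `A ⊗[W] B ≃+* A' ⊗[W] B` of a semilinear pair with semilinear inverses. -/
noncomputable def semiTensorEquiv (σW σW' : W →+* W) (f : A →+* A') (f' : A' →+* A)
    (τ τ' : B →+* B)
    (hf : ∀ (w : W) (a : A), f (w • a) = σW w • f a)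
    (hτ : ∀ (w : W) (b : B), τ (w • b) = σW w • τ b)
    (hf' : ∀ (w : W) (a : A'), f' (w • a) = σW' w • f' a)
    (hτ' : ∀ (w : W) (b : B), τ' (w • b) = σW' w • τ' b)
    (hff' : ∀ a, f' (f a) = a) (hf'f : ∀ a, f (f' a) = a)
    (hττ' : ∀ b, τ' (τ b) = b) (hτ'τ : ∀ b, τ (τ' b) = b) :
    A ⊗[W] B ≃+* A' ⊗[W] B :=
  RingEquiv.ofBijective (semiTensor σW f τ hf hτ)
    (semiTensor_bijective σW σW' f f' τ τ' hf hτ hf' hτ' hff' hf'f hττ' hτ'τ)

/-- For a bijective ring homomorphism, the extension of an ideal is its image. -/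
theorem mem_map_iff_of_bijective {R S : Type u} [CommRing R] [CommRing S] (φ : R →+* S)
    (hφ : Function.Bijective φ) (I : Ideal R) (y : S) :
    y ∈ I.map φ ↔ ∃ x ∈ I, φ x = y :=
  Ideal.mem_map_iff_of_surjective φ hφ.2

end Fermat.Agent.T1.Adapt39
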