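import Mathlib
import Fermat.Agent.T1.PtLine75

/-!
# T1A (S19), brick G7-B ADAPT, part (B4), generic core (helper39)

The ideal pair of a point, read inside a field `F` through ring homomorphisms of the charts,
is cut out by a valuation.

Setting: `c : TwoChart A R0 R1 R01`, ring homs `ε0 : R0 → F`, `ε1 : R1 → F`, `ε01 : R01 → F`
(injective) into a field, compatible with the restriction maps; a valuation `v` on `F`.

* `mem_ofChart0_I1_iff` : if `v ≤ 1` on `ε0 (R0)` ("the point lies in chart 0") and the ideal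
  `I0 ⊂ R0` is `{y | v (ε0 y) < 1}` ("functions vanishing at the point"), then the chart-1 ideal
  of `IdealPair.ofChart0 c I0` is `{y | v (ε0 t)⁻¹ ≤ 1 → v (ε1 y) < 1}`: the functions of chart 1
  vanishing at the point if the point lies in chart 1, everything otherwise.
* `mem_ofChart1_I0_iff` : the mirror statement.
* `mem_ptIdeal_iff_valuation_lt_one` : for the base change `K ⊗[W] B` and a `K`-point `q` which is
  "evaluation at `v`" (`v (ε (1 ⊗ b) - q b) < 1`), the ideal of the point is `{y | v (ε y) < 1}`.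
* `mem_ptPair0_I1_iff`, `mem_ptPair1_I0_iff` : the combination, for `PtLine75.ptPair0/1`.
* `exists_point_of_residue` : existence of the evaluation point `q` when the residue field is `K`.
-/

set_option autoImplicit false

open TensorProduct

namespace Fermat.Agent.T1.Adapt39

open Fermat.Agent.Jac Fermat.Agent.Jac.LineOps39 Fermat.Agent.Jac.BaseChange75
open Fermat.Agent.T1.RedIface75 Fermat.Agent.T1.PtLine75
open scoped Fermat.Agent.Jac.BaseChange75

universe u v w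

section Core

variable {A R0 R1 R01 : Type u} [CommRing A] [CommRing R0] [CommRing R1] [CommRing R01]
  [Algebra A R0] [Algebra A R1] [Algebra A R01] [Algebra R0 R01] [Algebra R1 R01]
  [IsScalarTower A R0 R01] [IsScalarTower A R1 R01]
  (c : TwoChart A R0 R1 R01)
  {F : Type v} [Field F] {Γ₀ : Type w} [LinearOrderedCommGroupWithZero Γ₀]
  (ε0 : R0 →+* F) (ε1 : R1 →+* F) (ε01 : R01 →+* F)

include c in
/-- The coordinates are inverse to each other in `F`. -/
theorem eps_t_mul_eps_s (hε0 : ∀ y, ε01 (algebraMap R0 R01 y) = ε0 y)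
    (hε1 : ∀ y, ε01 (algebraMap R1 R01 y) = ε1 y) : ε0 c.t * ε1 c.s = 1 := by
  rw [← hε0, ← hε1, ← map_mul, c.ts, map_one]

/-- Membership in the chart-1 ideal of the closure of `V(I0)`, in terms of `F`. -/
theorem mem_ofChart0_I1_iff_exists (hinj : Function.Injective ε01)
    (hε0 : ∀ y, ε01 (algebraMap R0 R01 y) = ε0 y) (hε1 : ∀ y, ε01 (algebraMap R1 R01 y) = ε1 y)
    (I0 : Ideal R0) (y : R1) :
    y ∈ (IdealPair.ofChart0 c I0).I1 ↔ ∃ m ∈ I0, ∃ k : ℕ, ε1 y * ε0 c.t ^ k = ε0 m := by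
  have := c.away0
  show y ∈ (I0.map (algebraMap R0 R01)).comap (algebraMap R1 R01) ↔ _
  rw [Ideal.mem_comap, IsLocalization.mem_map_algebraMap_iff (Submonoid.powers c.t) R01]
  constructor
  · rintro ⟨⟨⟨m, hm⟩, ⟨_, k, rfl⟩⟩, h⟩
    refine ⟨m, hm, k, ?_⟩
    have h' := congrArg ε01 h
    simpa [map_mul, map_pow, hε0, hε1] using h'
  · rintro ⟨m, hm, k, h⟩
    refine ⟨⟨⟨m, hm⟩, ⟨c.t ^ k, k, rfl⟩⟩, hinj ?_⟩
    simpa [map_mul, map_pow, hε0, hε1] using h

/-- Membership in the chart-0 ideal of the closure of `V(I1)`, in terms of `F`. -/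
theorem mem_ofChart1_I0_iff_exists (hinj : Function.Injective ε01)
    (hε0 : ∀ y, ε01 (algebraMap R0 R01 y) = ε0 y) (hε1 : ∀ y, ε01 (algebraMap R1 R01 y) = ε1 y)
    (I1 : Ideal R1) (y : R0) :
    y ∈ (IdealPair.ofChart1 c I1).I0 ↔ ∃ m ∈ I1, ∃ k : ℕ, ε0 y * ε1 c.s ^ k = ε1 m := by
  have := c.away1
  show y ∈ (I1.map (algebraMap R1 R01)).comap (algebraMap R0 R01) ↔ _
  rw [Ideal.mem_comap, IsLocalization.mem_map_algebraMap_iff (Submonoid.powers c.s) R01]
  constructor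
  · rintro ⟨⟨⟨m, hm⟩, ⟨_, k, rfl⟩⟩, h⟩
    refine ⟨m, hm, k, ?_⟩
    have h' := congrArg ε01 h
    simpa [map_mul, map_pow, hε0, hε1] using h'
  · rintro ⟨m, hm, k, h⟩
    refine ⟨⟨⟨m, hm⟩, ⟨c.s ^ k, k, rfl⟩⟩, hinj ?_⟩
    simpa [map_mul, map_pow, hε0, hε1] using h

include c in
/-- Every element of chart 1 becomes an element of chart 0 after multiplying by a power of `t`. -/
theorem exists_pow_mul_eq_chart0 (hε0 : ∀ y, ε01 (algebraMap R0 R01 y) = ε0 y)
    (hε1 : ∀ y, ε01 (algebraMap R1 R01 y) = ε1 y) (y : R1) :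
    ∃ (z : R0) (k : ℕ), ε1 y * ε0 c.t ^ k = ε0 z := by
  have := c.away0
  obtain ⟨⟨z, ⟨_, k, rfl⟩⟩, h⟩ := IsLocalization.surj (Submonoid.powers c.t) (algebraMap R1 R01 y)
  refine ⟨z, k, ?_⟩
  have h' := congrArg ε01 h
  simpa [map_mul, map_pow, hε0, hε1] using h'

include c in
/-- Every element of chart 0 becomes an element of chart 1 after multiplying by a power of `s`. -/
theorem exists_pow_mul_eq_chart1 (hε0 : ∀ y, ε01 (algebraMap R0 R01 y) = ε0 y)
    (hε1 : ∀ y, ε01 (algebraMap R1 R01 y) = ε1 y) (y : R0) :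
    ∃ (z : R1) (k : ℕ), ε0 y * ε1 c.s ^ k = ε1 z := by
  have := c.away1
  obtain ⟨⟨z, ⟨_, k, rfl⟩⟩, h⟩ := IsLocalization.surj (Submonoid.powers c.s) (algebraMap R0 R01 y)
  refine ⟨z, k, ?_⟩
  have h' := congrArg ε01 h
  simpa [map_mul, map_pow, hε0, hε1] using h'

variable (v : Valuation F Γ₀)

/-- **Chart-1 ideal of a point of chart 0.** -/
theorem mem_ofChart0_I1_iff (hinj : Function.Injective ε01)
    (hε0 : ∀ y, ε01 (algebraMap R0 R01 y) = ε0 y) (hε1 : ∀ y, ε01 (algebraMap R1 R01 y) = ε1 y)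
    (hint0 : ∀ y : R0, v (ε0 y) ≤ 1) (I0 : Ideal R0) (hI0 : ∀ y, y ∈ I0 ↔ v (ε0 y) < 1)
    (y : R1) :
    y ∈ (IdealPair.ofChart0 c I0).I1 ↔ (v (ε0 c.t)⁻¹ ≤ 1 → v (ε1 y) < 1) := by
  have hts := eps_t_mul_eps_s c ε0 ε1 ε01 hε0 hε1
  have ht0 : ε0 c.t ≠ 0 := left_ne_zero_of_mul_eq_one hts
  have hvt : v (ε0 c.t) ≤ 1 := hint0 c.t
  have hvt0 : v (ε0 c.t) ≠ 0 := (Valuation.ne_zero_iff v).mpr ht0
  rw [mem_ofChart0_I1_iff_exists c ε0 ε1 ε01 hinj hε0 hε1]
  constructor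
  · rintro ⟨m, hm, k, h⟩ hinv
    have hvt1 : v (ε0 c.t) = 1 := by
      rw [map_inv₀] at hinv
      exact le_antisymm hvt ((inv_le_one₀ (zero_lt_iff.mpr hvt0)).mp hinv)
    have h1 : v (ε1 y * ε0 c.t ^ k) < 1 := by rw [h]; exact (hI0 m).1 hm
    rwa [map_mul, map_pow, hvt1, one_pow, mul_one] at h1
  · intro H
    obtain ⟨z, k0, hz⟩ := exists_pow_mul_eq_chart0 c ε0 ε1 ε01 hε0 hε1 y
    by_cases hinv : v (ε0 c.t)⁻¹ ≤ 1
    · refine ⟨z, (hI0 z).2 ?_, k0, hz⟩
      rw [← hz, map_mul, map_pow]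
      calc v (ε1 y) * v (ε0 c.t) ^ k0 ≤ v (ε1 y) * 1 :=
            mul_le_mul' le_rfl (pow_le_one' hvt k0)
        _ = v (ε1 y) := mul_one _
        _ < 1 := H hinv
    · have hlt : v (ε0 c.t) < 1 := by
        rw [map_inv₀, not_le, one_lt_inv₀ (zero_lt_iff.mpr hvt0)] at hinv
        exact hinv
      refine ⟨z * c.t, (hI0 _).2 ?_, k0 + 1, ?_⟩
      · rw [map_mul, map_mul]
        calc v (ε0 z) * v (ε0 c.t) ≤ 1 * v (ε0 c.t) := mul_le_mul' (hint0 z) le_rfl
          _ = v (ε0 c.t) := one_mul _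
          _ < 1 := hlt
      · rw [pow_succ, ← mul_assoc, hz, map_mul]

/-- **Chart-0 ideal of a point of chart 1.** -/
theorem mem_ofChart1_I0_iff (hinj : Function.Injective ε01)
    (hε0 : ∀ y, ε01 (algebraMap R0 R01 y) = ε0 y) (hε1 : ∀ y, ε01 (algebraMap R1 R01 y) = ε1 y)
    (hint1 : ∀ y : R1, v (ε1 y) ≤ 1) (I1 : Ideal R1) (hI1 : ∀ y, y ∈ I1 ↔ v (ε1 y) < 1)
    (y : R0) :
    y ∈ (IdealPair.ofChart1 c I1).I0 ↔ (v (ε1 c.s)⁻¹ ≤ 1 → v (ε0 y) < 1) := by
  have hts := eps_t_mul_eps_s c ε0 ε1 ε01 hε0 hε1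
  have hs0 : ε1 c.s ≠ 0 := right_ne_zero_of_mul_eq_one hts
  have hvs : v (ε1 c.s) ≤ 1 := hint1 c.s
  have hvs0 : v (ε1 c.s) ≠ 0 := (Valuation.ne_zero_iff v).mpr hs0
  rw [mem_ofChart1_I0_iff_exists c ε0 ε1 ε01 hinj hε0 hε1]
  constructor
  · rintro ⟨m, hm, k, h⟩ hinv
    have hvs1 : v (ε1 c.s) = 1 := by
      rw [map_inv₀] at hinv
      exact le_antisymm hvs ((inv_le_one₀ (zero_lt_iff.mpr hvs0)).mp hinv)
    have h1 : v (ε0 y * ε1 c.s ^ k) < 1 := by rw [h]; exact (hI1 m).1 hm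
    rwa [map_mul, map_pow, hvs1, one_pow, mul_one] at h1
  · intro H
    obtain ⟨z, k0, hz⟩ := exists_pow_mul_eq_chart1 c ε0 ε1 ε01 hε0 hε1 y
    by_cases hinv : v (ε1 c.s)⁻¹ ≤ 1
    · refine ⟨z, (hI1 z).2 ?_, k0, hz⟩
      rw [← hz, map_mul, map_pow]
      calc v (ε0 y) * v (ε1 c.s) ^ k0 ≤ v (ε0 y) * 1 :=
            mul_le_mul' le_rfl (pow_le_one' hvs k0)
        _ = v (ε0 y) := mul_one _
        _ < 1 := H hinv
    · have hlt : v (ε1 c.s) < 1 := by
        rw [map_inv₀, not_le, one_lt_inv₀ (zero_lt_iff.mpr hvs0)] at hinv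
        exact hinv
      refine ⟨z * c.s, (hI1 _).2 ?_, k0 + 1, ?_⟩
      · rw [map_mul, map_mul]
        calc v (ε1 z) * v (ε1 c.s) ≤ 1 * v (ε1 c.s) := mul_le_mul' (hint1 z) le_rfl
          _ = v (ε1 c.s) := one_mul _
          _ < 1 := hlt
      · rw [pow_succ, ← mul_assoc, hz, map_mul]

end Core

section Point

variable {W : Type u} [CommRing W] {K : Type u} [Field K] [Algebra W K]
  {F : Type v} [Field F] [Algebra K F] {Γ₀ : Type w} [LinearOrderedCommGroupWithZero Γ₀]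
  (v : Valuation F Γ₀)

section OneChart

variable {B : Type u} [CommRing B] [Algebra W B] (ε : K ⊗[W] B →+* F)

/-- If `q` is "evaluation at `v`" on the generators `1 ⊗ b`, it is so on all of `K ⊗[W] B`. -/
theorem valuation_sub_ptEval_lt_one (hεK : ∀ a : K, ε (a ⊗ₜ[W] (1 : B)) = algebraMap K F a)
    (hvK : ∀ a : K, v (algebraMap K F a) ≤ 1) (q : B →ₐ[W] K)
    (hq : ∀ b, v (ε ((1 : K) ⊗ₜ[W] b) - algebraMap K F (q b)) < 1) (y : K ⊗[W] B) :
    v (ε y - algebraMap K F (ptEval q y)) < 1 := by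
  induction y using TensorProduct.induction_on with
  | zero => simp
  | tmul a b =>
    have h1 : ε (a ⊗ₜ[W] b) - algebraMap K F (ptEval q (a ⊗ₜ[W] b)) =
        algebraMap K F a * (ε ((1 : K) ⊗ₜ[W] b) - algebraMap K F (q b)) := by
      have h2 : a ⊗ₜ[W] b = (a ⊗ₜ[W] (1 : B)) * ((1 : K) ⊗ₜ[W] b) := by
        rw [Algebra.TensorProduct.tmul_mul_tmul, mul_one, one_mul]
      rw [ptEval_tmul, map_mul, h2, map_mul, hεK]
      ring
    rw [h1, map_mul]
    calc v (algebraMap K F a) * v (ε ((1 : K) ⊗ₜ[W] b) - algebraMap K F (q b))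
        ≤ 1 * v (ε ((1 : K) ⊗ₜ[W] b) - algebraMap K F (q b)) := mul_le_mul' (hvK a) le_rfl
      _ = v (ε ((1 : K) ⊗ₜ[W] b) - algebraMap K F (q b)) := one_mul _
      _ < 1 := hq b
  | add x y hx hy =>
    have h1 : ε (x + y) - algebraMap K F (ptEval q (x + y)) =
        (ε x - algebraMap K F (ptEval q x)) + (ε y - algebraMap K F (ptEval q y)) := by
      rw [map_add, map_add, map_add]; ring
    rw [h1]
    exact Valuation.map_add_lt v hx hy

/-- **The ideal of the evaluation point is cut out by the valuation.** -/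
theorem mem_ptIdeal_iff_valuation_lt_one
    (hεK : ∀ a : K, ε (a ⊗ₜ[W] (1 : B)) = algebraMap K F a)
    (hvK : ∀ a : K, a ≠ 0 → v (algebraMap K F a) = 1) (q : B →ₐ[W] K)
    (hq : ∀ b, v (ε ((1 : K) ⊗ₜ[W] b) - algebraMap K F (q b)) < 1) (y : K ⊗[W] B) :
    y ∈ ptIdeal q ↔ v (ε y) < 1 := by
  have hvK' : ∀ a : K, v (algebraMap K F a) ≤ 1 := fun a => by
    rcases eq_or_ne a 0 with rfl | ha
    · simp
    · exact (hvK a ha).le
  have key := valuation_sub_ptEval_lt_one v ε hεK hvK' q hq y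
  rw [mem_ptIdeal]
  constructor
  · intro h0
    rwa [h0, map_zero, sub_zero] at key
  · intro hlt
    by_contra hne
    have h1 : v (algebraMap K F (ptEval q y)) < 1 := by
      have h2 : algebraMap K F (ptEval q y) = ε y - (ε y - algebraMap K F (ptEval q y)) := by ring
      rw [h2]
      exact Valuation.map_sub_lt v hlt key
    rw [hvK _ hne] at h1
    exact lt_irrefl _ h1

/-- **Existence of the evaluation point** when the residue field of `v` on the chart is `K`. -/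
theorem exists_point_of_residue (hεK : ∀ a : K, ε (a ⊗ₜ[W] (1 : B)) = algebraMap K F a)
    (hvK : ∀ a : K, a ≠ 0 → v (algebraMap K F a) = 1) (hint : ∀ y, v (ε y) ≤ 1)
    (hres : ∀ y : K ⊗[W] B, ∃ a : K, v (ε y - algebraMap K F a) < 1) :
    ∃ q : B →ₐ[W] K, ∀ b, v (ε ((1 : K) ⊗ₜ[W] b) - algebraMap K F (q b)) < 1 := by
  have hvK' : ∀ a : K, v (algebraMap K F a) ≤ 1 := fun a => by
    rcases eq_or_ne a 0 with rfl | ha
    · simp
    · exact (hvK a ha).le
  choose ρ hρ using hres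
  have huniq : ∀ (y : K ⊗[W] B) (a : K), v (ε y - algebraMap K F a) < 1 → ρ y = a := by
    intro y a ha
    by_contra hne
    have h1 : v (algebraMap K F (ρ y - a)) < 1 := by
      have h2 : algebraMap K F (ρ y - a) =
          (ε y - algebraMap K F a) - (ε y - algebraMap K F (ρ y)) := by
        rw [map_sub]; ring
      rw [h2]
      exact Valuation.map_sub_lt v ha (hρ y)
    rw [hvK _ (sub_ne_zero.mpr hne)] at h1
    exact lt_irrefl _ h1
  have hρK : ∀ a : K, ρ (a ⊗ₜ[W] (1 : B)) = a := fun a =>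
    huniq _ a (by rw [hεK, sub_self, map_zero]; exact zero_lt_one)
  have hρmul : ∀ x y, ρ (x * y) = ρ x * ρ y := by
    intro x y
    apply huniq
    have h1 : ε (x * y) - algebraMap K F (ρ x * ρ y) =
        ε x * (ε y - algebraMap K F (ρ y)) + algebraMap K F (ρ y) * (ε x - algebraMap K F (ρ x)) := by
      rw [map_mul, map_mul]; ring
    rw [h1]
    refine Valuation.map_add_lt v ?_ ?_
    · rw [map_mul]
      calc v (ε x) * v (ε y - algebraMap K F (ρ y)) ≤ 1 * v (ε y - algebraMap K F (ρ y)) :=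
            mul_le_mul' (hint x) le_rfl
        _ = v (ε y - algebraMap K F (ρ y)) := one_mul _
        _ < 1 := hρ y
    · rw [map_mul]
      calc v (algebraMap K F (ρ y)) * v (ε x - algebraMap K F (ρ x))
          ≤ 1 * v (ε x - algebraMap K F (ρ x)) := mul_le_mul' (hvK' _) le_rfl
        _ = v (ε x - algebraMap K F (ρ x)) := one_mul _
        _ < 1 := hρ x
  have hρadd : ∀ x y, ρ (x + y) = ρ x + ρ y := by
    intro x y
    apply huniq
    have h1 : ε (x + y) - algebraMap K F (ρ x + ρ y) =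
        (ε x - algebraMap K F (ρ x)) + (ε y - algebraMap K F (ρ y)) := by
      rw [map_add, map_add]; ring
    rw [h1]
    exact Valuation.map_add_lt v (hρ x) (hρ y)
  have hρone : ρ 1 = 1 := by
    have := hρK 1
    rwa [← Algebra.TensorProduct.one_def] at this
  have hρzero : ρ 0 = 0 := huniq 0 0 (by simp)
  refine ⟨{ toFun := fun b => ρ ((1 : K) ⊗ₜ[W] b)
            map_one' := by rw [← Algebra.TensorProduct.one_def]; exact hρone
            map_mul' := fun b b' => by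
              rw [← hρmul, Algebra.TensorProduct.tmul_mul_tmul, one_mul]
            map_zero' := by rw [TensorProduct.tmul_zero]; exact hρzero
            map_add' := fun b b' => by rw [TensorProduct.tmul_add, hρadd]
            commutes' := fun r => by
              have h1 : (1 : K) ⊗ₜ[W] (algebraMap W B r) = (algebraMap W K r) ⊗ₜ[W] (1 : B) := by
                rw [Algebra.algebraMap_eq_smul_one, Algebra.algebraMap_eq_smul_one,
                  TensorProduct.smul_tmul]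
              show ρ ((1 : K) ⊗ₜ[W] (algebraMap W B r)) = algebraMap W K r
              rw [h1, hρK] }, fun b => hρ _⟩

end OneChart

section TwoCharts

variable {B0 B1 B01 : Type u} [CommRing B0] [CommRing B1] [CommRing B01]
  [Algebra W B0] [Algebra W B1] [Algebra W B01] [Algebra B0 B01] [Algebra B1 B01]
  [IsScalarTower W B0 B01] [IsScalarTower W B1 B01]
  (c0 : TwoChart W B0 B1 B01)
  (ε0 : K ⊗[W] B0 →+* F) (ε1 : K ⊗[W] B1 →+* F) (ε01 : K ⊗[W] B01 →+* F)

/-- **(B4), chart 0**: the chart-1 ideal of the ideal pair of the evaluation point `q` of chart 0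
consists of the functions of chart 1 vanishing at the point if `t⁻¹` is regular there, and of all
functions otherwise. -/
theorem mem_ptPair0_I1_iff (hinj : Function.Injective ε01)
    (hε0 : ∀ y, ε01 (algebraMap (K ⊗[W] B0) (K ⊗[W] B01) y) = ε0 y)
    (hε1 : ∀ y, ε01 (algebraMap (K ⊗[W] B1) (K ⊗[W] B01) y) = ε1 y)
    (hεK : ∀ a : K, ε0 (a ⊗ₜ[W] (1 : B0)) = algebraMap K F a)
    (hvK : ∀ a : K, a ≠ 0 → v (algebraMap K F a) = 1)
    (hint0 : ∀ y : K ⊗[W] B0, v (ε0 y) ≤ 1) (q : B0 →ₐ[W] K)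
    (hq : ∀ b, v (ε0 ((1 : K) ⊗ₜ[W] b) - algebraMap K F (q b)) < 1) (y : K ⊗[W] B1) :
    y ∈ (ptPair0 c0 q).I1 ↔ (v (ε0 ((1 : K) ⊗ₜ[W] c0.t))⁻¹ ≤ 1 → v (ε1 y) < 1) := by
  have h := mem_ofChart0_I1_iff (c0.baseChange K) ε0 ε1 ε01 v hinj hε0 hε1 hint0 (ptIdeal q)
    (mem_ptIdeal_iff_valuation_lt_one v ε0 hεK hvK q hq) y
  rwa [baseChange_t] at h

/-- **(B4), chart 1**: the mirror statement. -/
theorem mem_ptPair1_I0_iff (hinj : Function.Injective ε01)
    (hε0 : ∀ y, ε01 (algebraMap (K ⊗[W] B0) (K ⊗[W] B01) y) = ε0 y)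
    (hε1 : ∀ y, ε01 (algebraMap (K ⊗[W] B1) (K ⊗[W] B01) y) = ε1 y)
    (hεK : ∀ a : K, ε1 (a ⊗ₜ[W] (1 : B1)) = algebraMap K F a)
    (hvK : ∀ a : K, a ≠ 0 → v (algebraMap K F a) = 1)
    (hint1 : ∀ y : K ⊗[W] B1, v (ε1 y) ≤ 1) (q : B1 →ₐ[W] K)
    (hq : ∀ b, v (ε1 ((1 : K) ⊗ₜ[W] b) - algebraMap K F (q b)) < 1) (y : K ⊗[W] B0) :
    y ∈ (ptPair1 c0 q).I0 ↔ (v (ε1 ((1 : K) ⊗ₜ[W] c0.s))⁻¹ ≤ 1 → v (ε0 y) < 1) := by
  have h := mem_ofChart1_I0_iff (c0.baseChange K) ε0 ε1 ε01 v hinj hε0 hε1 hint1 (ptIdeal q)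
    (mem_ptIdeal_iff_valuation_lt_one v ε1 hεK hvK q hq) y
  rwa [baseChange_s] at h

end TwoCharts

end Point

end Fermat.Agent.T1.Adapt39
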