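import Mathlib
import Fermat.Agent.T1.Adapt39.PointCore
import Fermat.Agent.T1.Adapt39.SemiBij
import Fermat.Agent.T1.Dict59.Iface

/-!
# T1A (S19), brick G7-B ADAPT, parts (B3)+(B4): transport to `Dict59` line pairs, GENERIC form
(helper39)

Generic fields `K ⊂ F`, a coordinate `t : F`, `Dict59.C0/C1 (K := K) t` the two charts inside `F`,
`c0 : TwoChart W B0 B1 B01`, `K` a `W`-algebra, and ring isomorphisms
`e0 : K ⊗[W] B0 ≃+* C0 t`, `e1 : K ⊗[W] B1 ≃+* C1 t`, a ring hom `e01 : K ⊗[W] B01 →+* F`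
(the data of a `ChartIso`).

* `IsLinePairOf e0 e1 D P` : the line pair `P` is the image of the ideal pair `D`
  (`x ∈ P.I_j ↔ ∃ y ∈ D.I_j, (e_j y : F) = x`); this is the membership property of `toLinePair`.
* `IsPtPairVal v P` : `P` is the ideal sheaf of the point of the valuation `v`
  (generic form of `Dict59.IsPtPair`).
* `isPtPairVal_ptPair0`, `isPtPairVal_ptPair1` : **(B4)**.
* `isImage_of_map` : **(B3)**, `LinePair.IsImage g P P'` when `D'` is the image of `D` under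
  bijective ring homs `φ_j` with `e_j ∘ φ_j = g ∘ e_j`.
-/

set_option autoImplicit false

open TensorProduct

namespace Fermat.Agent.T1.Adapt39

open Fermat.Agent.Jac Fermat.Agent.Jac.LineOps39 Fermat.Agent.Jac.BaseChange75
open Fermat.Agent.T1.RedIface75 Fermat.Agent.T1.PtLine75 Fermat.Agent.T1.Dict59
open scoped Fermat.Agent.Jac.BaseChange75

universe u v w

section Integral

variable {R : Type*} {F : Type*} [CommRing R] [Field F] [Algebra R F]
  {Γ₀ : Type*} [LinearOrderedCommGroupWithZero Γ₀] (v : Valuation F Γ₀)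

open Polynomial in
/-- An element integral over a ring on which `v ≤ 1` has `v ≤ 1`. -/
theorem valuation_le_one_of_isIntegral (hR : ∀ r : R, v (algebraMap R F r) ≤ 1) {x : F}
    (hx : IsIntegral R x) : v x ≤ 1 := by
  obtain ⟨f, hm, hf⟩ := hx
  by_cases hn : f.natDegree = 0
  · rw [Polynomial.natDegree_eq_zero] at hn
    obtain ⟨c, rfl⟩ := hn
    have hc : c = 1 := by simpa [Polynomial.Monic, Polynomial.leadingCoeff_C] using hm
    subst hc
    rw [map_one, Polynomial.eval₂_one] at hf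
    exact absurd hf one_ne_zero
  simp only [Polynomial.eval₂_eq_sum_range, Finset.sum_range_succ, hm.coeff_natDegree, map_one,
    one_mul, add_eq_zero_iff_eq_neg] at hf
  apply_fun v at hf
  simp only [Valuation.map_neg, map_pow] at hf
  contrapose! hf
  refine ne_of_lt (v.map_sum_lt ?_ ?_)
  · simp [hn, (hf.trans' (zero_lt_one)).ne']
  · simp only [Finset.mem_range, map_mul, map_pow]
    intro _ hi
    exact mul_lt_of_le_one_of_lt (hR _) <| pow_lt_pow_right₀ hf hi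

end Integral

section Generic

variable {K : Type u} {F : Type v} [Field K] [Field F] [Algebra K F]
  {Γ₀ : Type w} [LinearOrderedCommGroupWithZero Γ₀] (v : Valuation F Γ₀)

/-- `v ≤ 1` on `K[t]` when `v` is `≤ 1` on `K` and at `t`. -/
theorem valuation_le_one_of_mem_adjoin (hvK : ∀ a : K, v (algebraMap K F a) ≤ 1) {t : F}
    (ht : v t ≤ 1) {x : F} (hx : x ∈ Algebra.adjoin K {t}) : v x ≤ 1 := by
  induction hx using Algebra.adjoin_induction with
  | mem x hx => rw [Set.mem_singleton_iff.mp hx]; exact ht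
  | algebraMap r => exact hvK r
  | add x y _ _ hx hy => exact (v.map_add x y).trans (max_le hx hy)
  | mul x y _ _ hx hy => rw [map_mul]; exact mul_le_one' hx hy

/-- `v ≤ 1` on the chart `C0 t` when `v` is `≤ 1` on `K` and at `t`. -/
theorem valuation_le_one_of_mem_C0 (hvK : ∀ a : K, v (algebraMap K F a) ≤ 1) {t : F}
    (ht : v t ≤ 1) {x : F} (hx : x ∈ C0 (K := K) t) : v x ≤ 1 := by
  rw [mem_C0_iff] at hx
  exact valuation_le_one_of_isIntegral v
    (fun r => valuation_le_one_of_mem_adjoin v hvK ht r.2) hx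

/-- `v ≤ 1` on the chart `C1 t` when `v` is `≤ 1` on `K` and at `t⁻¹`. -/
theorem valuation_le_one_of_mem_C1 (hvK : ∀ a : K, v (algebraMap K F a) ≤ 1) {t : F}
    (ht : v t⁻¹ ≤ 1) {x : F} (hx : x ∈ C1 (K := K) t) : v x ≤ 1 :=
  valuation_le_one_of_mem_C0 v hvK ht hx

variable {t : F}

/-- `P` is the ideal sheaf of the point of the valuation `v`: generic form of `Dict59.IsPtPair`. -/
def IsPtPairVal (P : LinePair K t) : Prop :=
  (∀ x, x ∈ P.I0 ↔ x ∈ C0 (K := K) t ∧ (v t ≤ 1 → v x < 1)) ∧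
  (∀ x, x ∈ P.I1 ↔ x ∈ C1 (K := K) t ∧ (v t⁻¹ ≤ 1 → v x < 1))

variable {W : Type u} [CommRing W] [Algebra W K]
  {B0 B1 B01 : Type u} [CommRing B0] [CommRing B1] [CommRing B01]
  [Algebra W B0] [Algebra W B1] [Algebra W B01] [Algebra B0 B01] [Algebra B1 B01]
  [IsScalarTower W B0 B01] [IsScalarTower W B1 B01]
  (c0 : TwoChart W B0 B1 B01)
  (e0 : K ⊗[W] B0 ≃+* ↥(C0 (K := K) t)) (e1 : K ⊗[W] B1 ≃+* ↥(C1 (K := K) t))
  (e01 : K ⊗[W] B01 →+* F)

/-- The line pair `P` is the image of the ideal pair `D` under the chart isomorphisms: the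
membership property of `toLinePair`. -/
def IsLinePairOf (D : IdealPair (K ⊗[W] B0) (K ⊗[W] B1) (K ⊗[W] B01)) (P : LinePair K t) : Prop :=
  (∀ x, x ∈ P.I0 ↔ ∃ y ∈ D.I0, ((e0 y : ↥(C0 (K := K) t)) : F) = x) ∧
  (∀ x, x ∈ P.I1 ↔ ∃ y ∈ D.I1, ((e1 y : ↥(C1 (K := K) t)) : F) = x)

/-- The ring hom `K ⊗[W] B0 → F` underlying `e0`. -/
noncomputable def eps0 : K ⊗[W] B0 →+* F := (C0 (K := K) t).val.toRingHom.comp e0.toRingHom

/-- The ring hom `K ⊗[W] B1 → F` underlying `e1`. -/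
noncomputable def eps1 : K ⊗[W] B1 →+* F := (C1 (K := K) t).val.toRingHom.comp e1.toRingHom

@[simp] theorem eps0_apply (y : K ⊗[W] B0) : eps0 e0 y = ((e0 y : ↥(C0 (K := K) t)) : F) := rfl

@[simp] theorem eps1_apply (y : K ⊗[W] B1) : eps1 e1 y = ((e1 y : ↥(C1 (K := K) t)) : F) := rfl

/-- **(B4), chart 0.**  `v` a valuation on `F`, trivial on `K`, with `v t ≤ 1` (the point lies in
chart 0); `q : B0 →ₐ[W] K` the evaluation point of `v`.  Then every line pair which is the image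
of `ptPair0 c0 q` is the ideal sheaf of the point of `v`. -/
theorem isPtPairVal_ptPair0 (hinj : Function.Injective e01)
    (he0 : ∀ y, e01 (algebraMap (K ⊗[W] B0) (K ⊗[W] B01) y) = ((e0 y : ↥(C0 (K := K) t)) : F))
    (he1 : ∀ y, e01 (algebraMap (K ⊗[W] B1) (K ⊗[W] B01) y) = ((e1 y : ↥(C1 (K := K) t)) : F))
    (he0K : ∀ a : K, ((e0 (a ⊗ₜ[W] (1 : B0)) : ↥(C0 (K := K) t)) : F) = algebraMap K F a)
    (he0t : ((e0 ((1 : K) ⊗ₜ[W] c0.t) : ↥(C0 (K := K) t)) : F) = t)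
    (hvK : ∀ a : K, a ≠ 0 → v (algebraMap K F a) = 1) (ht : v t ≤ 1)
    (q : B0 →ₐ[W] K)
    (hq : ∀ b, v (((e0 ((1 : K) ⊗ₜ[W] b) : ↥(C0 (K := K) t)) : F) - algebraMap K F (q b)) < 1)
    (P : LinePair K t) (hP : IsLinePairOf e0 e1 (ptPair0 c0 q) P) :
    IsPtPairVal v P := by
  have hvK' : ∀ a : K, v (algebraMap K F a) ≤ 1 := fun a => by
    rcases eq_or_ne a 0 with rfl | ha
    · simp
    · exact (hvK a ha).le
  have hint0 : ∀ y : K ⊗[W] B0, v (eps0 e0 y) ≤ 1 := fun y =>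
    valuation_le_one_of_mem_C0 v hvK' ht (e0 y).2
  have hI0 := mem_ptIdeal_iff_valuation_lt_one v (eps0 e0) he0K hvK q hq
  have hI1 := mem_ptPair0_I1_iff v c0 (eps0 e0) (eps1 e1) e01 hinj he0 he1 he0K hvK hint0 q hq
  refine ⟨fun x => ?_, fun x => ?_⟩
  · rw [hP.1 x]
    constructor
    · rintro ⟨y, hy, rfl⟩
      exact ⟨(e0 y).2, fun _ => (hI0 y).1 hy⟩
    · rintro ⟨hx, hlt⟩
      refine ⟨e0.symm ⟨x, hx⟩, (hI0 _).2 ?_, ?_⟩
      · rw [eps0_apply, RingEquiv.apply_symm_apply]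
        exact hlt ht
      · rw [RingEquiv.apply_symm_apply]
  · rw [hP.2 x]
    have htt : eps0 e0 ((1 : K) ⊗ₜ[W] c0.t) = t := he0t
    constructor
    · rintro ⟨y, hy, rfl⟩
      refine ⟨(e1 y).2, fun hinv => ?_⟩
      have := (hI1 y).1 hy
      rw [htt] at this
      exact this hinv
    · rintro ⟨hx, hlt⟩
      refine ⟨e1.symm ⟨x, hx⟩, (hI1 _).2 ?_, ?_⟩
      · rw [htt, eps1_apply, RingEquiv.apply_symm_apply]
        exact hlt
      · rw [RingEquiv.apply_symm_apply]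

/-- **(B4), chart 1.**  The mirror statement: `v t⁻¹ ≤ 1`, `q : B1 →ₐ[W] K`. -/
theorem isPtPairVal_ptPair1 (hinj : Function.Injective e01)
    (he0 : ∀ y, e01 (algebraMap (K ⊗[W] B0) (K ⊗[W] B01) y) = ((e0 y : ↥(C0 (K := K) t)) : F))
    (he1 : ∀ y, e01 (algebraMap (K ⊗[W] B1) (K ⊗[W] B01) y) = ((e1 y : ↥(C1 (K := K) t)) : F))
    (he1K : ∀ a : K, ((e1 (a ⊗ₜ[W] (1 : B1)) : ↥(C1 (K := K) t)) : F) = algebraMap K F a)
    (he1s : ((e1 ((1 : K) ⊗ₜ[W] c0.s) : ↥(C1 (K := K) t)) : F) = t⁻¹)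
    (hvK : ∀ a : K, a ≠ 0 → v (algebraMap K F a) = 1) (ht : v t⁻¹ ≤ 1)
    (q : B1 →ₐ[W] K)
    (hq : ∀ b, v (((e1 ((1 : K) ⊗ₜ[W] b) : ↥(C1 (K := K) t)) : F) - algebraMap K F (q b)) < 1)
    (P : LinePair K t) (hP : IsLinePairOf e0 e1 (ptPair1 c0 q) P) :
    IsPtPairVal v P := by
  have hvK' : ∀ a : K, v (algebraMap K F a) ≤ 1 := fun a => by
    rcases eq_or_ne a 0 with rfl | ha
    · simp
    · exact (hvK a ha).le
  have hint1 : ∀ y : K ⊗[W] B1, v (eps1 e1 y) ≤ 1 := fun y =>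
    valuation_le_one_of_mem_C1 v hvK' ht (e1 y).2
  have hI1 := mem_ptIdeal_iff_valuation_lt_one v (eps1 e1) he1K hvK q hq
  have hI0 := mem_ptPair1_I0_iff v c0 (eps0 e0) (eps1 e1) e01 hinj he0 he1 he1K hvK hint1 q hq
  have hss : eps1 e1 ((1 : K) ⊗ₜ[W] c0.s) = t⁻¹ := he1s
  refine ⟨fun x => ?_, fun x => ?_⟩
  · rw [hP.1 x]
    constructor
    · rintro ⟨y, hy, rfl⟩
      refine ⟨(e0 y).2, fun hinv => ?_⟩
      have := (hI0 y).1 hy
      rw [hss, inv_inv] at this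
      exact this hinv
    · rintro ⟨hx, hlt⟩
      refine ⟨e0.symm ⟨x, hx⟩, (hI0 _).2 ?_, ?_⟩
      · rw [hss, inv_inv, eps0_apply, RingEquiv.apply_symm_apply]
        exact hlt
      · rw [RingEquiv.apply_symm_apply]
  · rw [hP.2 x]
    constructor
    · rintro ⟨y, hy, rfl⟩
      exact ⟨(e1 y).2, fun _ => (hI1 y).1 hy⟩
    · rintro ⟨hx, hlt⟩
      refine ⟨e1.symm ⟨x, hx⟩, (hI1 _).2 ?_, ?_⟩
      · rw [eps1_apply, RingEquiv.apply_symm_apply]
        exact hlt ht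
      · rw [RingEquiv.apply_symm_apply]

/-- **(B3).**  If `D'` is the image of `D` under bijective ring homomorphisms `φ0`, `φ1` of the
charts which correspond, through `e0`, `e1`, to a ring automorphism `g` of `F`, then the line pair
of `D'` is the image under `g` of the line pair of `D`.  (Combine with
`PtLine75.mapSemi_mk_ofIdeals` and `semiTensor_bijective`.) -/
theorem isImage_of_map (g : F ≃+* F)
    (φ0 : K ⊗[W] B0 →+* K ⊗[W] B0) (φ1 : K ⊗[W] B1 →+* K ⊗[W] B1)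
    (hφ0 : Function.Bijective φ0) (hφ1 : Function.Bijective φ1)
    (hg0 : ∀ y, ((e0 (φ0 y) : ↥(C0 (K := K) t)) : F) = g ((e0 y : ↥(C0 (K := K) t)) : F))
    (hg1 : ∀ y, ((e1 (φ1 y) : ↥(C1 (K := K) t)) : F) = g ((e1 y : ↥(C1 (K := K) t)) : F))
    {D D' : IdealPair (K ⊗[W] B0) (K ⊗[W] B1) (K ⊗[W] B01)}
    (h0 : D'.I0 = D.I0.map φ0) (h1 : D'.I1 = D.I1.map φ1)
    {P P' : LinePair K t} (hP : IsLinePairOf e0 e1 D P) (hP' : IsLinePairOf e0 e1 D' P') :
    LinePair.IsImage g P P' := by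
  refine ⟨fun x => ?_, fun x => ?_⟩
  · rw [hP'.1 x]
    constructor
    · rintro ⟨y', hy', rfl⟩
      rw [h0, mem_map_iff_of_bijective φ0 hφ0] at hy'
      obtain ⟨y, hy, rfl⟩ := hy'
      exact ⟨_, (hP.1 _).2 ⟨y, hy, rfl⟩, hg0 y⟩
    · rintro ⟨z, hz, rfl⟩
      obtain ⟨y, hy, rfl⟩ := (hP.1 z).1 hz
      refine ⟨φ0 y, ?_, hg0 y⟩
      rw [h0]
      exact Ideal.mem_map_of_mem φ0 hy
  · rw [hP'.2 x]
    constructor
    · rintro ⟨y', hy', rfl⟩
      rw [h1, mem_map_iff_of_bijective φ1 hφ1] at hy'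
      obtain ⟨y, hy, rfl⟩ := hy'
      exact ⟨_, (hP.2 _).2 ⟨y, hy, rfl⟩, hg1 y⟩
    · rintro ⟨z, hz, rfl⟩
      obtain ⟨y, hy, rfl⟩ := (hP.2 z).1 hz
      refine ⟨φ1 y, ?_, hg1 y⟩
      rw [h1]
      exact Ideal.mem_map_of_mem φ1 hy

end Generic

end Fermat.Agent.T1.Adapt39
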