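import Mathlib
import Fermat.Agent.T1.Adapt39.Transport
import Fermat.Agent.T1.Dict59.Iface2
import Fermat.Agent.X0.FFDict
import Fermat.Prelude.Def_AlgebraicCurve_Repartitions

/-!
# T1A (S19), brick G7-B ADAPT, part (B4): from the generic `IsPtPairVal` to `Dict59.IsPtPair`
(helper39)

* `valOfPlace w` : the valuation on `L·F_M` of a place `w` of `ℚ̄·F_M` (pull-back along `cL`);
  `valOfPlace_le_one_iff`, `valOfPlace_lt_one_iff`, `valOfPlace_algebraMap`.
* `isPtPair_of_isPtPairVal` : `IsPtPairVal (valOfPlace w) P → Dict59.IsPtPair w P`.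
-/

set_option autoImplicit false
set_option linter.unusedSectionVars false
set_option synthInstance.maxHeartbeats 400000
set_option maxHeartbeats 1000000

noncomputable section

open HahnSeries AlgebraicCurve ModularCurve IntermediateField
open Fermat.Agent.RED.Interface4

namespace Fermat.Agent.T1.Adapt39

open Fermat.Agent.T1.Dict59

section PlaceGeneric

variable {K F : Type*} [Field K] [Field F] [Algebra K F] (v : Place K F)

/-- `v.adicValuation f < 1` iff `f` vanishes at `v`. -/
theorem adicValuation_lt_one_iff (f : F) : v.adicValuation f < 1 ↔ f = 0 ∨ 0 < v.ord f := by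
  rcases eq_or_ne f 0 with rfl | hf
  · simp
  · rw [v.adicValuation_eq_exp_neg_ord hf, or_iff_right hf, ← WithZero.exp_zero,
      WithZero.exp_lt_exp, neg_lt_zero]

end PlaceGeneric

variable {M : ℕ} {L : IntermediateField ℚ Qbar}

/-- The valuation on `L·F_M` of a place of `ℚ̄·F_M`. -/
def valOfPlace (w : Place Qbar (Fbar M)) : Valuation (FK M L) (WithZero (Multiplicative ℤ)) :=
  w.adicValuation.comap (cL M L)

theorem valOfPlace_apply (w : Place Qbar (Fbar M)) (x : FK M L) :
    valOfPlace w x = w.adicValuation (cL M L x) := rfl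

theorem valOfPlace_le_one_iff (w : Place Qbar (Fbar M)) (x : FK M L) :
    valOfPlace w x ≤ 1 ↔ cL M L x ∈ w.toValuationSubring := by
  rw [valOfPlace_apply, Place.adicValuation_le_one_iff, Fermat.Agent.X0.FF.mem_iff_ord_nonneg]

theorem valOfPlace_lt_one_iff (w : Place Qbar (Fbar M)) (x : FK M L) :
    valOfPlace w x < 1 ↔ x = 0 ∨ 0 < w.ord (cL M L x) := by
  rw [valOfPlace_apply, adicValuation_lt_one_iff]
  constructor
  · rintro (h | h)
    · exact Or.inl (cL_injective M L (by rw [h, map_zero]))
    · exact Or.inr h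
  · rintro (h | h)
    · exact Or.inl (by rw [h, map_zero])
    · exact Or.inr h

/-- **(B4), concrete form**: the generic point-pair property for the valuation of `w` is
`Dict59.IsPtPair w`. -/
theorem isPtPair_of_isPtPairVal {t : FK M L} (w : Place Qbar (Fbar M)) (P : LinePair L t)
    (h : IsPtPairVal (valOfPlace w) P) : IsPtPair w P := by
  refine ⟨fun x => ?_, fun x => ?_⟩
  · rw [h.1 x, valOfPlace_le_one_iff, valOfPlace_lt_one_iff]
  · rw [h.2 x, valOfPlace_le_one_iff, valOfPlace_lt_one_iff, map_inv₀]

end Fermat.Agent.T1.Adapt39
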