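import Mathlib
import Fermat.Agent.T1.Adapt39.Concrete
import Fermat.Agent.T1.Adapt96.ToLinePair
import Fermat.Agent.T1.Dict59.DivCalc

/-!
# T1A (S19), brick G7-B ADAPT, parts (B3)+(B4): instantiation at helper96's `ChartIso`
(helper39)

`E : Adapt96.ChartIso (c0.baseChange K) t`.

* `fg_of_invertible`, `ne_bot_of_invertible`, `ChartIso` side conditions of `toLinePair` from
  `IsLine`: `ne_bot0_of_isLine`, `ne_bot1_of_isLine`, `fg0_of_isLine`, `fg1_of_isLine`, and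
  `toLinePairOfLine E D hL`.
* `isLinePairOf_toLinePair` : `toLinePair` has the membership property `IsLinePairOf`.
* **(B4)** `isPtPairVal_toLinePair_ptPair0/1` (generic valuation),
  `isPtPair_toLinePair_ptPair0/1` (concrete: `Dict59.IsPtPair w (E.toLinePair (ptPair_j c0 q))`).
* **(B3)** `eps_semiTensor` (compatibility of `E.ι_j` with a semilinear tensor map follows from
  the compatibility on constants and on `1 ⊗ b`), `isImage_toLinePair`,
  `isGalois_toLinePair` (concrete: `LinePair.IsGalois τ`).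
-/

set_option autoImplicit false
set_option linter.unusedSectionVars false
set_option synthInstance.maxHeartbeats 400000
set_option maxHeartbeats 1000000

open TensorProduct

namespace Fermat.Agent.T1.Adapt39

open Fermat.Agent.Jac Fermat.Agent.Jac.LineOps39 Fermat.Agent.Jac.BaseChange75
open Fermat.Agent.T1.RedIface75 Fermat.Agent.T1.PtLine75 Fermat.Agent.T1.Dict59
open Fermat.Agent.T1.Adapt96
open scoped Fermat.Agent.Jac.BaseChange75

universe u v w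

/-! ### Invertible ideals are finitely generated and nonzero -/

section Invertible

variable {R : Type u} [CommRing R]

theorem fg_of_invertible (I : Ideal R) (h : Module.Invertible R I) : I.FG :=
  Module.Finite.iff_fg.mp inferInstance

theorem ne_bot_of_invertible [Nontrivial R] (I : Ideal R) (h : Module.Invertible R I) :
    I ≠ ⊥ := by
  intro hI
  have hs : Subsingleton I := by
    rw [hI]
    infer_instance
  have hF : FaithfulSMul R I := inferInstance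
  have h01 : (1 : R) = 0 := hF.eq_of_smul_eq_smul fun x => Subsingleton.elim _ _
  exact one_ne_zero h01

end Invertible

/-! ### Side conditions of `toLinePair` from `IsLine` -/

section Line

variable {K R0 R1 R01 : Type u} [Field K] [CommRing R0] [CommRing R1] [CommRing R01]
  [Algebra K R0] [Algebra K R1] [Algebra K R01] [Algebra R0 R01] [Algebra R1 R01]
  [IsScalarTower K R0 R01] [IsScalarTower K R1 R01]
  {F : Type v} [Field F] [Algebra K F]
  {c : TwoChart K R0 R1 R01} {t : F} (E : ChartIso c t)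

include E in
theorem ne_bot0_of_isLine {D : IdealPair R0 R1 R01} (hL : (ofIdeals c D).IsLine) : D.I0 ≠ ⊥ :=
  haveI := E.isDomain0
  ne_bot_of_invertible D.I0 hL.inv0

include E in
theorem ne_bot1_of_isLine {D : IdealPair R0 R1 R01} (hL : (ofIdeals c D).IsLine) : D.I1 ≠ ⊥ :=
  haveI := E.isDomain1
  ne_bot_of_invertible D.I1 hL.inv1

theorem fg0_of_isLine {D : IdealPair R0 R1 R01} (hL : (ofIdeals c D).IsLine) : D.I0.FG :=
  fg_of_invertible D.I0 hL.inv0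

theorem fg1_of_isLine {D : IdealPair R0 R1 R01} (hL : (ofIdeals c D).IsLine) : D.I1.FG :=
  fg_of_invertible D.I1 hL.inv1

/-- The line pair of an ideal pair whose ideal sheaf is a line bundle. -/
noncomputable def toLinePairOfLine (D : IdealPair R0 R1 R01) (hL : (ofIdeals c D).IsLine) :
    LinePair K t :=
  E.toLinePair D (ne_bot0_of_isLine E hL) (ne_bot1_of_isLine E hL) (fg0_of_isLine hL)
    (fg1_of_isLine hL)

theorem mem_toLinePairOfLine_I0 {D : IdealPair R0 R1 R01} {hL : (ofIdeals c D).IsLine} {x : F} :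
    x ∈ (toLinePairOfLine E D hL).I0 ↔ ∃ y ∈ D.I0, x = E.ι0 y := Iff.rfl

theorem mem_toLinePairOfLine_I1 {D : IdealPair R0 R1 R01} {hL : (ofIdeals c D).IsLine} {x : F} :
    x ∈ (toLinePairOfLine E D hL).I1 ↔ ∃ y ∈ D.I1, x = E.ι1 y := Iff.rfl

end Line

/-! ### Instantiation of the generic (B3), (B4) -/

section Inst

variable {K : Type u} {F : Type v} [Field K] [Field F] [Algebra K F] {t : F}
  {W : Type u} [CommRing W] [Algebra W K]
  {B0 B1 B01 : Type u} [CommRing B0] [CommRing B1] [CommRing B01]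
  [Algebra W B0] [Algebra W B1] [Algebra W B01] [Algebra B0 B01] [Algebra B1 B01]
  [IsScalarTower W B0 B01] [IsScalarTower W B1 B01]
  (c0 : TwoChart W B0 B1 B01) (E : ChartIso (c0.baseChange K) t)

theorem isLinePairOf_toLinePair (D : IdealPair (K ⊗[W] B0) (K ⊗[W] B1) (K ⊗[W] B01))
    (hD0 : D.I0 ≠ ⊥) (hD1 : D.I1 ≠ ⊥) (hfg0 : D.I0.FG) (hfg1 : D.I1.FG) :
    IsLinePairOf E.e0 E.e1 D (E.toLinePair D hD0 hD1 hfg0 hfg1) :=
  ⟨fun _ => ⟨fun ⟨y, hy, h⟩ => ⟨y, hy, h.symm⟩, fun ⟨y, hy, h⟩ => ⟨y, hy, h.symm⟩⟩,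
   fun _ => ⟨fun ⟨y, hy, h⟩ => ⟨y, hy, h.symm⟩, fun ⟨y, hy, h⟩ => ⟨y, hy, h.symm⟩⟩⟩

theorem chartIso_e0_const (a : K) :
    ((E.e0 (a ⊗ₜ[W] (1 : B0)) : ↥(C0 (K := K) t)) : F) = algebraMap K F a := by
  have h := E.linear0 a
  rwa [Algebra.TensorProduct.algebraMap_apply, Algebra.algebraMap_self, RingHom.id_apply] at h

theorem chartIso_e1_const (a : K) :
    ((E.e1 (a ⊗ₜ[W] (1 : B1)) : ↥(C1 (K := K) t)) : F) = algebraMap K F a := by
  have h := E.linear1 a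
  rwa [Algebra.TensorProduct.algebraMap_apply, Algebra.algebraMap_self, RingHom.id_apply] at h

theorem chartIso_e0_t : ((E.e0 ((1 : K) ⊗ₜ[W] c0.t) : ↥(C0 (K := K) t)) : F) = t := by
  have h := E.map_t
  rwa [baseChange_t] at h

theorem chartIso_e1_s : ((E.e1 ((1 : K) ⊗ₜ[W] c0.s) : ↥(C1 (K := K) t)) : F) = t⁻¹ := by
  have h := E.map_s
  rwa [baseChange_s] at h

variable {Γ₀ : Type w} [LinearOrderedCommGroupWithZero Γ₀] (v : Valuation F Γ₀)

/-- **(B4), chart 0, generic valuation**, for `E.toLinePair`. -/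
theorem isPtPairVal_toLinePair_ptPair0
    (hvK : ∀ a : K, a ≠ 0 → v (algebraMap K F a) = 1) (ht : v t ≤ 1) (q : B0 →ₐ[W] K)
    (hq : ∀ b, v (E.ι0 ((1 : K) ⊗ₜ[W] b) - algebraMap K F (q b)) < 1)
    (hD0 : (ptPair0 c0 q).I0 ≠ ⊥) (hD1 : (ptPair0 c0 q).I1 ≠ ⊥)
    (hfg0 : (ptPair0 c0 q).I0.FG) (hfg1 : (ptPair0 c0 q).I1.FG) :
    IsPtPairVal v (E.toLinePair (ptPair0 c0 q) hD0 hD1 hfg0 hfg1) :=
  isPtPairVal_ptPair0 v c0 E.e0 E.e1 E.e01 E.e01_inj E.comm0 E.comm1 (chartIso_e0_const c0 E)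
    (chartIso_e0_t c0 E) hvK ht q hq _ (isLinePairOf_toLinePair c0 E _ hD0 hD1 hfg0 hfg1)

/-- **(B4), chart 1, generic valuation**, for `E.toLinePair`. -/
theorem isPtPairVal_toLinePair_ptPair1
    (hvK : ∀ a : K, a ≠ 0 → v (algebraMap K F a) = 1) (ht : v t⁻¹ ≤ 1) (q : B1 →ₐ[W] K)
    (hq : ∀ b, v (E.ι1 ((1 : K) ⊗ₜ[W] b) - algebraMap K F (q b)) < 1)
    (hD0 : (ptPair1 c0 q).I0 ≠ ⊥) (hD1 : (ptPair1 c0 q).I1 ≠ ⊥)
    (hfg0 : (ptPair1 c0 q).I0.FG) (hfg1 : (ptPair1 c0 q).I1.FG) :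
    IsPtPairVal v (E.toLinePair (ptPair1 c0 q) hD0 hD1 hfg0 hfg1) :=
  isPtPairVal_ptPair1 v c0 E.e0 E.e1 E.e01 E.e01_inj E.comm0 E.comm1 (chartIso_e1_const c0 E)
    (chartIso_e1_s c0 E) hvK ht q hq _ (isLinePairOf_toLinePair c0 E _ hD0 hD1 hfg0 hfg1)

/-! ### (B3): semilinear tensor maps -/

/-- A ring hom `ε : K ⊗[W] B → F`, `K`-linear, intertwines the semilinear tensor map
`a ⊗ b ↦ f a ⊗ τ b` with a ring endomorphism `g` of `F` as soon as it does so on constants and on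
the elements `1 ⊗ b`. -/
theorem eps_semiTensor {B : Type u} [CommRing B] [Algebra W B] (ε : K ⊗[W] B →+* F)
    (hεK : ∀ a : K, ε (a ⊗ₜ[W] (1 : B)) = algebraMap K F a) (g : F →+* F)
    (σW : W →+* W) (f : K →+* K) (τ : B →+* B)
    (hf : ∀ (x : W) (a : K), f (x • a) = σW x • f a)
    (hτ : ∀ (x : W) (b : B), τ (x • b) = σW x • τ b)
    (hgK : ∀ a : K, g (algebraMap K F a) = algebraMap K F (f a))
    (hgB : ∀ b : B, g (ε ((1 : K) ⊗ₜ[W] b)) = ε ((1 : K) ⊗ₜ[W] τ b)) (y : K ⊗[W] B) :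
    ε (semiTensor σW f τ hf hτ y) = g (ε y) := by
  have hsplit : ∀ (a : K) (b : B), ε (a ⊗ₜ[W] b) = algebraMap K F a * ε ((1 : K) ⊗ₜ[W] b) := by
    intro a b
    rw [← hεK, ← map_mul, Algebra.TensorProduct.tmul_mul_tmul, mul_one, one_mul]
  induction y using TensorProduct.induction_on with
  | zero => simp
  | add x y hx hy => simp only [map_add, hx, hy]
  | tmul a b =>
    rw [semiTensor_tmul, hsplit (f a) (τ b), hsplit a b, map_mul, hgK, hgB]

/-- **(B3)** for `E.toLinePair`: the line pair of the image of `D` under the semilinear tensor maps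
is the image of the line pair of `D` under `g`. -/
theorem isImage_toLinePair (g : F ≃+* F) (σW : W →+* W) (f : K →+* K)
    (σ0 : B0 →+* B0) (σ1 : B1 →+* B1)
    (hf : ∀ (x : W) (a : K), f (x • a) = σW x • f a)
    (h0 : ∀ (x : W) (b : B0), σ0 (x • b) = σW x • σ0 b)
    (h1 : ∀ (x : W) (b : B1), σ1 (x • b) = σW x • σ1 b)
    (hb0 : Function.Bijective (semiTensor σW f σ0 hf h0))
    (hb1 : Function.Bijective (semiTensor σW f σ1 hf h1))
    (hgK : ∀ a : K, g (algebraMap K F a) = algebraMap K F (f a))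
    (hg0 : ∀ b : B0, g (E.ι0 ((1 : K) ⊗ₜ[W] b)) = E.ι0 ((1 : K) ⊗ₜ[W] σ0 b))
    (hg1 : ∀ b : B1, g (E.ι1 ((1 : K) ⊗ₜ[W] b)) = E.ι1 ((1 : K) ⊗ₜ[W] σ1 b))
    {D D' : IdealPair (K ⊗[W] B0) (K ⊗[W] B1) (K ⊗[W] B01)}
    (hI0 : D'.I0 = D.I0.map (semiTensor σW f σ0 hf h0))
    (hI1 : D'.I1 = D.I1.map (semiTensor σW f σ1 hf h1))
    (hD0 : D.I0 ≠ ⊥) (hD1 : D.I1 ≠ ⊥) (hfg0 : D.I0.FG) (hfg1 : D.I1.FG)
    (hD0' : D'.I0 ≠ ⊥) (hD1' : D'.I1 ≠ ⊥) (hfg0' : D'.I0.FG) (hfg1' : D'.I1.FG) :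
    LinePair.IsImage g (E.toLinePair D hD0 hD1 hfg0 hfg1)
      (E.toLinePair D' hD0' hD1' hfg0' hfg1') :=
  isImage_of_map E.e0 E.e1 g _ _ hb0 hb1
    (eps_semiTensor E.ι0 (chartIso_e0_const c0 E) g.toRingHom σW f σ0 hf h0 hgK hg0)
    (eps_semiTensor E.ι1 (chartIso_e1_const c0 E) g.toRingHom σW f σ1 hf h1 hgK hg1)
    hI0 hI1 (isLinePairOf_toLinePair c0 E D hD0 hD1 hfg0 hfg1)
    (isLinePairOf_toLinePair c0 E D' hD0' hD1' hfg0' hfg1')

end Inst

/-! ### Concrete forms -/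

section ConcreteInst

open HahnSeries AlgebraicCurve ModularCurve IntermediateField
open Fermat.Agent.RED.Interface4

variable {M : ℕ} {L : IntermediateField ℚ Qbar} {t : FK M L}
  {W : Type} [CommRing W] [Algebra W L]
  {B0 B1 B01 : Type} [CommRing B0] [CommRing B1] [CommRing B01]
  [Algebra W B0] [Algebra W B1] [Algebra W B01] [Algebra B0 B01] [Algebra B1 B01]
  [IsScalarTower W B0 B01] [IsScalarTower W B1 B01]
  (c0 : TwoChart W B0 B1 B01) (E : ChartIso (c0.baseChange L) t)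

/-- The valuation of a place of `ℚ̄·F_M` is trivial on the constants of `L·F_M`. -/
theorem valOfPlace_algebraMap (w : Place Qbar (Fbar M)) (a : L) (ha : a ≠ 0) :
    valOfPlace w (algebraMap L (FK M L) a) = 1 := by
  rw [valOfPlace_apply, cL_algebraMap]
  have hne : algebraMap Qbar (Fbar M) (algebraMap L Qbar a) ≠ 0 := by
    rw [Ne, map_eq_zero, map_eq_zero]
    exact ha
  rw [w.adicValuation_eq_exp_neg_ord hne, Fermat.Agent.X0.FF.ord_algebraMap, neg_zero,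
    WithZero.exp_zero]

/-- **(B4), chart 0, concrete form.**  `w` a place of `ℚ̄·F_M` at which `t` is regular,
`q : B0 →ₐ[W] L` with `ι0 (1 ⊗ b) ≡ q b` at `w` for every `b`: then the line pair of
`ptPair0 c0 q` is the ideal sheaf of the point `w`. -/
theorem isPtPair_toLinePair_ptPair0 (w : Place Qbar (Fbar M))
    (ht : cL M L t ∈ w.toValuationSubring) (q : B0 →ₐ[W] L)
    (hq : ∀ b, valOfPlace w (E.ι0 ((1 : L) ⊗ₜ[W] b) - algebraMap L (FK M L) (q b)) < 1)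
    (hD0 : (ptPair0 c0 q).I0 ≠ ⊥) (hD1 : (ptPair0 c0 q).I1 ≠ ⊥)
    (hfg0 : (ptPair0 c0 q).I0.FG) (hfg1 : (ptPair0 c0 q).I1.FG) :
    IsPtPair w (E.toLinePair (ptPair0 c0 q) hD0 hD1 hfg0 hfg1) :=
  isPtPair_of_isPtPairVal w _
    (isPtPairVal_toLinePair_ptPair0 c0 E (valOfPlace w) (valOfPlace_algebraMap w)
      ((valOfPlace_le_one_iff w t).2 ht) q hq hD0 hD1 hfg0 hfg1)

/-- **(B4), chart 1, concrete form.** -/
theorem isPtPair_toLinePair_ptPair1 (w : Place Qbar (Fbar M))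
    (ht : cL M L t⁻¹ ∈ w.toValuationSubring) (q : B1 →ₐ[W] L)
    (hq : ∀ b, valOfPlace w (E.ι1 ((1 : L) ⊗ₜ[W] b) - algebraMap L (FK M L) (q b)) < 1)
    (hD0 : (ptPair1 c0 q).I0 ≠ ⊥) (hD1 : (ptPair1 c0 q).I1 ≠ ⊥)
    (hfg0 : (ptPair1 c0 q).I0.FG) (hfg1 : (ptPair1 c0 q).I1.FG) :
    IsPtPair w (E.toLinePair (ptPair1 c0 q) hD0 hD1 hfg0 hfg1) :=
  isPtPair_of_isPtPairVal w _
    (isPtPairVal_toLinePair_ptPair1 c0 E (valOfPlace w) (valOfPlace_algebraMap w)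
      ((valOfPlace_le_one_iff w t⁻¹).2 ht) q hq hD0 hD1 hfg0 hfg1)

/-- **(B3), concrete form**: `τ ∈ Gal(L/ℚ)`, the chart system fixed (`σ_j = id`), the images of
`B_j` in `L·F_M` having `τ`-fixed (e.g. rational) coefficients.  Then `toLinePair` of the
`τ ⊗ id`-image of `D` is `τ • toLinePair D`. -/
theorem isGalois_toLinePair (τ : L ≃ₐ[ℚ] L)
    (hf : ∀ (x : W) (a : L), (τ : L →+* L) (x • a) = RingHom.id W x • (τ : L →+* L) a)
    (hb0 : Function.Bijective (semiTensor (B := B0) (RingHom.id W) (τ : L →+* L) (RingHom.id B0) hf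
      (fun _ _ => rfl)))
    (hb1 : Function.Bijective (semiTensor (B := B1) (RingHom.id W) (τ : L →+* L) (RingHom.id B1) hf
      (fun _ _ => rfl)))
    (hg0 : ∀ b : B0, arith M L τ (E.ι0 ((1 : L) ⊗ₜ[W] b)) = E.ι0 ((1 : L) ⊗ₜ[W] b))
    (hg1 : ∀ b : B1, arith M L τ (E.ι1 ((1 : L) ⊗ₜ[W] b)) = E.ι1 ((1 : L) ⊗ₜ[W] b))
    {D D' : IdealPair (L ⊗[W] B0) (L ⊗[W] B1) (L ⊗[W] B01)}
    (hI0 : D'.I0 = D.I0.map (semiTensor (RingHom.id W) (τ : L →+* L) (RingHom.id B0) hf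
      (fun _ _ => rfl)))
    (hI1 : D'.I1 = D.I1.map (semiTensor (RingHom.id W) (τ : L →+* L) (RingHom.id B1) hf
      (fun _ _ => rfl)))
    (hD0 : D.I0 ≠ ⊥) (hD1 : D.I1 ≠ ⊥) (hfg0 : D.I0.FG) (hfg1 : D.I1.FG)
    (hD0' : D'.I0 ≠ ⊥) (hD1' : D'.I1 ≠ ⊥) (hfg0' : D'.I0.FG) (hfg1' : D'.I1.FG) :
    LinePair.IsGalois τ (E.toLinePair D hD0 hD1 hfg0 hfg1)
      (E.toLinePair D' hD0' hD1' hfg0' hfg1') :=
  isImage_toLinePair c0 E (arith M L τ) (RingHom.id W) (τ : L →+* L) (RingHom.id B0)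
    (RingHom.id B1) hf (fun _ _ => rfl) (fun _ _ => rfl) hb0 hb1
    (fun a => arithmeticRingAut_algebraMap (modularFunctionFieldFull M) τ a) hg0 hg1 hI0 hI1
    hD0 hD1 hfg0 hfg1 hD0' hD1' hfg0' hfg1'

end ConcreteInst

end Fermat.Agent.T1.Adapt39
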