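import Mathlib
import Fermat.Agent.T1.Adapt39.Inst
import Fermat.Agent.T1.Dict22.RatValue
import Fermat.Agent.T1.Dict59.Level

/-!
# T1A (S19), brick G7-B ADAPT: the point statements consumed by DICT-FINAL (helper39)

`c0 : TwoChart W B0 B1 B01`, `E : Adapt96.ChartIso (c0.baseChange L) t`, `w` a place of `ℚ̄·F_M`,
`Dict59.IsPtOf0 c0 E w q` : "`q : B0 →ₐ[W] L` is the point of `w`" (`Dict59/Level.lean`).

* `isPtOf0_iff`, `isPtOf1_iff` : valuation form of `IsPtOf_j`;
* (T1) `isPtPair_ptPair0`, (T1') `isPtPair_ptPair1` (and `isPtPair_ptPair1'` for any place at which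
  `t⁻¹` is regular);
* (T2) `exists_isPtOf0`, (T2') `exists_isPtOf1` (existence of the point of an `L`-rational place),
  `exists_isPtOf1'`;
* (T3) `isPtOf0_unique`, `isPtOf1_unique`;
* (T4) `ptPair0_I0_ne_bot`, `ptPair0_I1_ne_bot`, `ptPair1_I0_ne_bot`, `ptPair1_I1_ne_bot`
  (generic, from `t` nonconstant), `ptPair0_ne_bot`, `ptPair1_ne_bot` (concrete, from `IsCoord`);
* `isPtOf0_mem`, `isPtOf1_inv_mem` : a chart-`j` point lies in chart `j`.
-/

set_option autoImplicit false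
set_option linter.unusedSectionVars false
set_option synthInstance.maxHeartbeats 400000
set_option maxHeartbeats 1000000

open TensorProduct

namespace Fermat.Agent.T1.Adapt39

open Fermat.Agent.Jac Fermat.Agent.Jac.LineOps39 Fermat.Agent.Jac.BaseChange75
open Fermat.Agent.T1.RedIface75 Fermat.Agent.T1.PtLine75 Fermat.Agent.T1.Dict59
open Fermat.Agent.T1.Adapt96
open scoped Fermat.Agent.Jac.BaseChange75

universe u v w

/-! ### (T4), generic: the ideals of a point pair are nonzero -/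

section NeBot

variable {K : Type u} {F : Type v} [Field K] [Field F] [Algebra K F] {t : F}
  {W : Type u} [CommRing W] [Algebra W K]
  {B0 B1 B01 : Type u} [CommRing B0] [CommRing B1] [CommRing B01]
  [Algebra W B0] [Algebra W B1] [Algebra W B01] [Algebra B0 B01] [Algebra B1 B01]
  [IsScalarTower W B0 B01] [IsScalarTower W B1 B01]
  (c0 : TwoChart W B0 B1 B01) (E : ChartIso (c0.baseChange K) t)

include E in
theorem ptPair0_I0_ne_bot (ht : ∀ a : K, t - algebraMap K F a ≠ 0) (q : B0 →ₐ[W] K) :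
    (ptPair0 c0 q).I0 ≠ ⊥ := by
  intro h
  have hz : (1 : K) ⊗ₜ[W] c0.t - q c0.t ⊗ₜ[W] (1 : B0) ∈ (ptPair0 c0 q).I0 :=
    sub_mem_ptIdeal q c0.t
  rw [h, Ideal.mem_bot] at hz
  have h2 := congrArg E.ι0 hz
  rw [map_sub, map_zero, ChartIso.ι0_apply, ChartIso.ι0_apply, chartIso_e0_t,
    chartIso_e0_const] at h2
  exact ht _ h2

include E in
theorem ptPair0_I1_ne_bot (ht : ∀ a : K, t - algebraMap K F a ≠ 0) (q : B0 →ₐ[W] K) :
    (ptPair0 c0 q).I1 ≠ ⊥ := by
  intro h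
  have hz := unit_mod_ptPair0 c0 q
  rw [h, Ideal.mem_bot] at hz
  have h2 := congrArg E.ι1 hz
  rw [map_sub, map_mul, map_one, map_zero, ChartIso.ι1_apply, ChartIso.ι1_apply, E.linear1,
    E.map_s] at h2
  have ht0 : t ≠ 0 := by
    have := ht 0
    rwa [map_zero, sub_zero] at this
  refine ht (q c0.t) ?_
  rw [sub_eq_zero] at h2 ⊢
  field_simp at h2
  exact h2.symm

include E in
theorem ptPair1_I1_ne_bot (ht : ∀ a : K, t - algebraMap K F a ≠ 0) (q : B1 →ₐ[W] K) :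
    (ptPair1 c0 q).I1 ≠ ⊥ := by
  intro h
  have hz : (1 : K) ⊗ₜ[W] c0.s - q c0.s ⊗ₜ[W] (1 : B1) ∈ (ptPair1 c0 q).I1 :=
    sub_mem_ptIdeal q c0.s
  rw [h, Ideal.mem_bot] at hz
  have h2 := congrArg E.ι1 hz
  rw [map_sub, map_zero, ChartIso.ι1_apply, ChartIso.ι1_apply, chartIso_e1_s,
    chartIso_e1_const, sub_eq_zero] at h2
  refine ht (q c0.s)⁻¹ ?_
  rw [map_inv₀, ← h2, inv_inv, sub_self]

include E in
theorem ptPair1_I0_ne_bot (ht : ∀ a : K, t - algebraMap K F a ≠ 0) (q : B1 →ₐ[W] K) :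
    (ptPair1 c0 q).I0 ≠ ⊥ := by
  intro h
  have hz := unit_mod_ptPair1 c0 q
  rw [h, Ideal.mem_bot] at hz
  have h2 := congrArg E.ι0 hz
  rw [map_sub, map_mul, map_one, map_zero, ChartIso.ι0_apply, ChartIso.ι0_apply, E.linear0,
    E.map_t, sub_eq_zero] at h2
  have hne : algebraMap K F (q c0.s) ≠ 0 := by
    intro h0
    rw [h0, zero_mul] at h2
    exact zero_ne_one h2
  refine ht (q c0.s)⁻¹ ?_
  rw [map_inv₀, sub_eq_zero]
  exact eq_inv_of_mul_eq_one_right h2

end NeBot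

/-! ### Generic uniqueness and existence of the point of a valuation -/

section GenericPoint

variable {K : Type u} {F : Type v} [Field K] [Field F] [Algebra K F]
  {W : Type u} [CommRing W] [Algebra W K] {B : Type u} [CommRing B] [Algebra W B]
  {Γ₀ : Type w} [LinearOrderedCommGroupWithZero Γ₀] (v : Valuation F Γ₀)
  (ε : K ⊗[W] B →+* F)

/-- **(T3), generic**: the point of a valuation trivial on the constants is unique. -/
theorem point_unique_of_valuation (hvK : ∀ a : K, a ≠ 0 → v (algebraMap K F a) = 1)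
    (q q' : B →ₐ[W] K)
    (hq : ∀ b, v (ε ((1 : K) ⊗ₜ[W] b) - algebraMap K F (q b)) < 1)
    (hq' : ∀ b, v (ε ((1 : K) ⊗ₜ[W] b) - algebraMap K F (q' b)) < 1) : q = q' := by
  refine AlgHom.ext fun b => ?_
  by_contra hne
  have h3 : algebraMap K F (q b - q' b) =
      (ε ((1 : K) ⊗ₜ[W] b) - algebraMap K F (q' b)) -
        (ε ((1 : K) ⊗ₜ[W] b) - algebraMap K F (q b)) := by
    rw [map_sub]; ring
  have h4 := Valuation.map_sub_lt v (hq' b) (hq b)
  rw [← h3, hvK _ (sub_ne_zero.mpr hne)] at h4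
  exact lt_irrefl _ h4

/-- **(T2), generic**: existence of the point of a valuation, trivial on the constants and with
residue field `K` on the valuation ring. -/
theorem exists_point_of_valuation (hεK : ∀ a : K, ε (a ⊗ₜ[W] (1 : B)) = algebraMap K F a)
    (hvK : ∀ a : K, a ≠ 0 → v (algebraMap K F a) = 1) (hint : ∀ y, v (ε y) ≤ 1)
    (hres : ∀ y : F, v y ≤ 1 → ∃ a : K, v (y - algebraMap K F a) < 1) :
    ∃ q : B →ₐ[W] K, ∀ b, v (ε ((1 : K) ⊗ₜ[W] b) - algebraMap K F (q b)) < 1 :=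
  exists_point_of_residue v ε hεK hvK hint fun y => hres _ (hint y)

end GenericPoint

/-! ### Concrete statements -/

section ConcreteLevel

open HahnSeries AlgebraicCurve ModularCurve IntermediateField
open Fermat.Agent.RED.Interface4

/- Speed only: `Algebra ↥L ↥(FK M L)` is found by `SubalgebraClass.toAlgebra` (priority 75 in
Mathlib, i.e. after several expensive failing branches).  Raising its priority locally yields the
SAME instance term about 10x faster. -/
attribute [local instance 2000] SubalgebraClass.toAlgebra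

variable {M : ℕ} {L : IntermediateField ℚ Qbar} {t : FK M L}
  {W : Type} [CommRing W] [Algebra W L]
  {B0 B1 B01 : Type} [CommRing B0] [CommRing B1] [CommRing B01]
  [Algebra W B0] [Algebra W B1] [Algebra W B01] [Algebra B0 B01] [Algebra B1 B01]
  [IsScalarTower W B0 B01] [IsScalarTower W B1 B01]
  (c0 : TwoChart W B0 B1 B01) (E : ChartIso (c0.baseChange L) t)

/-- The "value" condition in valuation form. -/
theorem valOfPlace_sub_lt_one_iff (w : Place Qbar (Fbar M)) (x y : FK M L) :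
    valOfPlace w (x - y) < 1 ↔ x = y ∨ 0 < w.ord (cL M L (x - y)) := by
  rw [valOfPlace_lt_one_iff, sub_eq_zero]

/-- Valuation form of `IsPtOf0`. -/
theorem isPtOf0_iff (w : Place Qbar (Fbar M)) (q : B0 →ₐ[W] L) :
    IsPtOf0 c0 E w q ↔
      ∀ b, valOfPlace w (E.ι0 ((1 : L) ⊗ₜ[W] b) - algebraMap L (FK M L) (q b)) < 1 :=
  forall_congr' fun _ => (valOfPlace_sub_lt_one_iff w _ _).symm

/-- Valuation form of `IsPtOf1`. -/
theorem isPtOf1_iff (w : Place Qbar (Fbar M)) (q : B1 →ₐ[W] L) :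
    IsPtOf1 c0 E w q ↔
      ∀ b, valOfPlace w (E.ι1 ((1 : L) ⊗ₜ[W] b) - algebraMap L (FK M L) (q b)) < 1 :=
  forall_congr' fun _ => (valOfPlace_sub_lt_one_iff w _ _).symm

include E in
/-- **(T4)** for chart-0 points, from `IsCoord`. -/
theorem ptPair0_ne_bot (ht : IsCoord M t) (q : B0 →ₐ[W] L) :
    (ptPair0 c0 q).I0 ≠ ⊥ ∧ (ptPair0 c0 q).I1 ≠ ⊥ :=
  ⟨ptPair0_I0_ne_bot c0 E (fun a => ht.sub_algebraMap_ne_zero a) q,
   ptPair0_I1_ne_bot c0 E (fun a => ht.sub_algebraMap_ne_zero a) q⟩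

include E in
/-- **(T4)** for chart-1 points, from `IsCoord`. -/
theorem ptPair1_ne_bot (ht : IsCoord M t) (q : B1 →ₐ[W] L) :
    (ptPair1 c0 q).I0 ≠ ⊥ ∧ (ptPair1 c0 q).I1 ≠ ⊥ :=
  ⟨ptPair1_I0_ne_bot c0 E (fun a => ht.sub_algebraMap_ne_zero a) q,
   ptPair1_I1_ne_bot c0 E (fun a => ht.sub_algebraMap_ne_zero a) q⟩

/-- **(T1)** the line pair of the point pair of the point `q` of `w` (chart 0) is the ideal sheaf
of `w`. -/
theorem isPtPair_ptPair0 (w : Place Qbar (Fbar M)) (hw : cL M L t ∈ w.toValuationSubring)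
    (q : B0 →ₐ[W] L) (hq : IsPtOf0 c0 E w q)
    (h0 : (ptPair0 c0 q).I0 ≠ ⊥) (h1 : (ptPair0 c0 q).I1 ≠ ⊥)
    (hfg0 : (ptPair0 c0 q).I0.FG) (hfg1 : (ptPair0 c0 q).I1.FG) :
    IsPtPair w (E.toLinePair (ptPair0 c0 q) h0 h1 hfg0 hfg1) :=
  isPtPair_toLinePair_ptPair0 c0 E w hw q ((isPtOf0_iff c0 E w q).1 hq) h0 h1 hfg0 hfg1

/-- **(T1'), general form**: chart 1, `t⁻¹` regular at `w`. -/
theorem isPtPair_ptPair1' (w : Place Qbar (Fbar M)) (hw : cL M L t⁻¹ ∈ w.toValuationSubring)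
    (q : B1 →ₐ[W] L) (hq : IsPtOf1 c0 E w q)
    (h0 : (ptPair1 c0 q).I0 ≠ ⊥) (h1 : (ptPair1 c0 q).I1 ≠ ⊥)
    (hfg0 : (ptPair1 c0 q).I0.FG) (hfg1 : (ptPair1 c0 q).I1.FG) :
    IsPtPair w (E.toLinePair (ptPair1 c0 q) h0 h1 hfg0 hfg1) :=
  isPtPair_toLinePair_ptPair1 c0 E w hw q ((isPtOf1_iff c0 E w q).1 hq) h0 h1 hfg0 hfg1

/-- `t⁻¹` is regular where `t` is not. -/
theorem cL_inv_mem_of_not_mem (w : Place Qbar (Fbar M)) (hw : cL M L t ∉ w.toValuationSubring) :
    cL M L t⁻¹ ∈ w.toValuationSubring := by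
  rw [map_inv₀]
  exact (w.toValuationSubring.mem_or_inv_mem _).resolve_left hw

/-- **(T1')** chart 1: `t` has a pole at `w`. -/
theorem isPtPair_ptPair1 (w : Place Qbar (Fbar M)) (hw : cL M L t ∉ w.toValuationSubring)
    (q : B1 →ₐ[W] L) (hq : IsPtOf1 c0 E w q)
    (h0 : (ptPair1 c0 q).I0 ≠ ⊥) (h1 : (ptPair1 c0 q).I1 ≠ ⊥)
    (hfg0 : (ptPair1 c0 q).I0.FG) (hfg1 : (ptPair1 c0 q).I1.FG) :
    IsPtPair w (E.toLinePair (ptPair1 c0 q) h0 h1 hfg0 hfg1) :=
  isPtPair_ptPair1' c0 E w (cL_inv_mem_of_not_mem w hw) q hq h0 h1 hfg0 hfg1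

/-- **(T3)**, chart 0: the point of `w` is unique. -/
theorem isPtOf0_unique (w : Place Qbar (Fbar M)) (q q' : B0 →ₐ[W] L)
    (hq : IsPtOf0 c0 E w q) (hq' : IsPtOf0 c0 E w q') : q = q' :=
  point_unique_of_valuation (valOfPlace w) E.ι0 (valOfPlace_algebraMap w) q q'
    ((isPtOf0_iff c0 E w q).1 hq) ((isPtOf0_iff c0 E w q').1 hq')

/-- **(T3)**, chart 1. -/
theorem isPtOf1_unique (w : Place Qbar (Fbar M)) (q q' : B1 →ₐ[W] L)
    (hq : IsPtOf1 c0 E w q) (hq' : IsPtOf1 c0 E w q') : q = q' :=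
  point_unique_of_valuation (valOfPlace w) E.ι1 (valOfPlace_algebraMap w) q q'
    ((isPtOf1_iff c0 E w q).1 hq) ((isPtOf1_iff c0 E w q').1 hq')

/-- A chart-0 point lies in chart 0: `t` is regular at `w`. -/
theorem isPtOf0_mem (w : Place Qbar (Fbar M)) (q : B0 →ₐ[W] L) (hq : IsPtOf0 c0 E w q) :
    cL M L t ∈ w.toValuationSubring := by
  have h := (isPtOf0_iff c0 E w q).1 hq c0.t
  rw [ChartIso.ι0_apply, chartIso_e0_t] at h
  rw [← valOfPlace_le_one_iff]
  have h2 : t = (t - algebraMap L (FK M L) (q c0.t)) + algebraMap L (FK M L) (q c0.t) := by ring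
  rw [h2]
  refine ((valOfPlace w).map_add _ _).trans (max_le h.le ?_)
  rcases eq_or_ne (q c0.t) 0 with h0 | h0
  · rw [h0, map_zero, map_zero]; exact zero_le_one
  · exact (valOfPlace_algebraMap w _ h0).le

/-- A chart-1 point lies in chart 1: `t⁻¹` is regular at `w`. -/
theorem isPtOf1_inv_mem (w : Place Qbar (Fbar M)) (q : B1 →ₐ[W] L) (hq : IsPtOf1 c0 E w q) :
    cL M L t⁻¹ ∈ w.toValuationSubring := by
  have h := (isPtOf1_iff c0 E w q).1 hq c0.s
  rw [ChartIso.ι1_apply, chartIso_e1_s] at h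
  rw [← valOfPlace_le_one_iff]
  have h2 : t⁻¹ = (t⁻¹ - algebraMap L (FK M L) (q c0.s)) + algebraMap L (FK M L) (q c0.s) := by
    ring
  rw [h2]
  refine ((valOfPlace w).map_add _ _).trans (max_le h.le ?_)
  rcases eq_or_ne (q c0.s) 0 with h0 | h0
  · rw [h0, map_zero, map_zero]; exact zero_le_one
  · exact (valOfPlace_algebraMap w _ h0).le

variable [NeZero M]

/-- The residue field of an `L`-rational place on `L·F_M` is `L` (valuation form of
`Dict22.RatValue.exists_value_mem`). -/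
theorem exists_const_valOfPlace_sub_lt_one (w : Place Qbar (Fbar M)) (hrat : IsRatPlace L w)
    (y : FK M L) (hy : valOfPlace w y ≤ 1) :
    ∃ a : L, valOfPlace w (y - algebraMap L (FK M L) a) < 1 := by
  obtain ⟨a, ha⟩ := Fermat.Agent.T1.Dict22.RatValue.exists_value_mem M L w hrat y
    ((valOfPlace_le_one_iff w _).1 hy)
  exact ⟨a, (valOfPlace_sub_lt_one_iff w _ _).2 ha⟩

/-- **(T2)** the point of an `L`-rational place at which `t` is regular. -/
theorem exists_isPtOf0 (w : Place Qbar (Fbar M)) (hrat : IsRatPlace L w)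
    (hw : cL M L t ∈ w.toValuationSubring) : ∃ q : B0 →ₐ[W] L, IsPtOf0 c0 E w q := by
  have hvK := valOfPlace_algebraMap (M := M) (L := L) w
  have hvK' : ∀ a : L, valOfPlace w (algebraMap L (FK M L) a) ≤ 1 := fun a => by
    rcases eq_or_ne a 0 with rfl | ha
    · simp
    · exact (hvK a ha).le
  obtain ⟨q, hq⟩ := exists_point_of_valuation (valOfPlace w) E.ι0 (chartIso_e0_const c0 E) hvK
    (fun y => valuation_le_one_of_mem_C0 (valOfPlace w) hvK' ((valOfPlace_le_one_iff w t).2 hw)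
      (E.e0 y).2)
    (exists_const_valOfPlace_sub_lt_one w hrat)
  exact ⟨q, (isPtOf0_iff c0 E w q).2 hq⟩

/-- **(T2'), general form**: the point of an `L`-rational place at which `t⁻¹` is regular. -/
theorem exists_isPtOf1' (w : Place Qbar (Fbar M)) (hrat : IsRatPlace L w)
    (hw : cL M L t⁻¹ ∈ w.toValuationSubring) : ∃ q : B1 →ₐ[W] L, IsPtOf1 c0 E w q := by
  have hvK := valOfPlace_algebraMap (M := M) (L := L) w
  have hvK' : ∀ a : L, valOfPlace w (algebraMap L (FK M L) a) ≤ 1 := fun a => by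
    rcases eq_or_ne a 0 with rfl | ha
    · simp
    · exact (hvK a ha).le
  obtain ⟨q, hq⟩ := exists_point_of_valuation (valOfPlace w) E.ι1 (chartIso_e1_const c0 E) hvK
    (fun y => valuation_le_one_of_mem_C1 (valOfPlace w) hvK'
      ((valOfPlace_le_one_iff w t⁻¹).2 hw) (E.e1 y).2)
    (exists_const_valOfPlace_sub_lt_one w hrat)
  exact ⟨q, (isPtOf1_iff c0 E w q).2 hq⟩

/-- **(T2')** the point of an `L`-rational place at which `t` has a pole. -/
theorem exists_isPtOf1 (w : Place Qbar (Fbar M)) (hrat : IsRatPlace L w)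
    (hw : cL M L t ∉ w.toValuationSubring) : ∃ q : B1 →ₐ[W] L, IsPtOf1 c0 E w q :=
  exists_isPtOf1' c0 E w hrat (cL_inv_mem_of_not_mem w hw)

end ConcreteLevel

end Fermat.Agent.T1.Adapt39
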